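/-
T1B / brick H-GEOM (helper93), file Base: (G0) THE TWO-CHART MODEL OF `X₀(N)` OVER `A`, UNCONDITIONALLY
for `4 ∣ N`, `p ∤ N`, `A ⊂ ℚbar` a valuation ring over `p` — everything the slices of brick H use about
the ES/RED model, as ONE existence statement.

* `IsModel A N T` (`T : TwoCharts A hx F̃_N`): both charts are coefficientwise (`GaloisInst21.CoeffChart`),
  satisfy the analytic inputs `RedMain15.ChartInputs`, the global map `T.r` is a place reduction in the
  sense of the Prelude, the coordinates are `t = tq ℚbar 4 8 = q⁻¹(η(q)/η(q⁴))⁸` (chart 0) and `t⁻¹`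
  (chart 1), and reductions of `A`-integral elements of `F` lie in `F̃`;
* `exists_model` : `∃ x hx T, IsModel A N T`;
* `isAlgClosed_kA`, `charP_kA`, `hasPrincipalDivisors_bar'`, `hasPrincipalDivisorsC` : the standing
  instances, as theorems.
-/
import Mathlib
import Fermat.Agent.ES.TOP.ModelAtFinal8
import Fermat.Agent.ES.RED.RedInst15
import Fermat.Agent.ES.RED.RedMem16
import Fermat.Agent.RED.TOP.FbarFacts20

set_option autoImplicit false
set_option linter.unusedSectionVars false
set_option linter.style.haveILetI false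
set_option synthInstance.maxHeartbeats 400000

open AlgebraicCurve ModularCurve HahnSeries

noncomputable section

namespace Fermat.Agent.T1B.HolGeom93

open Fermat.Agent.X0 Fermat.Agent.X0.FF Fermat.Agent.ES.RED.PlaceValue13
open Fermat.Agent.ES.RED.Contract8 Fermat.Agent.ES.RED.TwoCharts8 Fermat.Agent.ES.RED.RedMain15
open Fermat.Agent.ES.RED.GaloisInst21 Fermat.Agent.ES.RED.SpecialInv25
open Fermat.Agent.RED.BASE Fermat.Agent.RED.BASE.Hauptmodul12 Fermat.Agent.RED.BASE.EtaQuot12

variable (A : ValuationSubring Kbar) (N : ℕ) [NeZero N]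

/-- **The two-chart model with all its properties.** -/
structure IsModel {x : FF N} {hx : IsGen Kbar x}
    (T : TwoCharts A hx ↥(modularFunctionFieldFullC (kA A) N)) : Prop where
  c0 : CoeffChart (F₀ := modularFunctionFieldFull N) T.S0
  c1 : CoeffChart (F₀ := modularFunctionFieldFull N) T.S1
  in0 : ChartInputs A N T.S0
  in1 : ChartInputs A N T.S1
  peel0 : ∀ (P : Place Kbar (FF N)) (hP : T.S0.InChart P), T.S0.PeelA P hP
  peel1 : ∀ (P : Place Kbar (FF N)) (hP : T.S1.InChart P), T.S1.PeelA P hP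
  red : IsPlaceReductionModL A N T.r
  coe_s0 : ((T.S0.s : FF N) : LaurentSeries Kbar) = tq Kbar 4 8
  coe_s1 : ((T.S1.s : FF N) : LaurentSeries Kbar) = tqInv Kbar 4 8
  mem : ∀ Y : LaurentSeries ↥A, coeffMap A.subtype Y ∈ modularFunctionFieldBar N →
    coeffMap (IsLocalRing.residue ↥A) Y ∈ modularFunctionFieldFullC (kA A) N

theorem isAlgClosed_kA : IsAlgClosed (kA A) :=
  Fermat.Agent.ES.KRON.KronInst10.isAlgClosed_residueField A

variable {A} in
theorem charP_kA {p : ℕ} (hp : p.Prime) (hA : A.LiesOverPrime p) : CharP (kA A) p :=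
  Fermat.Agent.ES.KRON.KronInst10.charP_residueField A hp hA

/-- **(G0)**: the model exists for `4 ∣ N`, `p ∤ N`, `A` over `p`. -/
theorem exists_model {p : ℕ} (hp : p.Prime) (h4 : 4 ∣ N) (hpN : ¬ p ∣ N)
    (hA : A.LiesOverPrime p) :
    ∃ (x : FF N) (hx : IsGen Kbar x) (T : TwoCharts A hx ↥(modularFunctionFieldFullC (kA A) N)),
      IsModel A N T := by
  haveI : Fact p.Prime := ⟨hp⟩
  obtain ⟨x, hx, T, c0, c1, hs0, peel0, peel1⟩ :=
    Fermat.Agent.ES.TOP.ModelAtFinal8.modelAt p hp A hA 4 8 baseHyp_four N h4 hpN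
  have hmem := tMem_of_dvd baseHyp_four h4
  have hgen := tGenBase' baseHyp_four
  obtain ⟨h0, h1⟩ := Fermat.Agent.ES.RED.RedInst15.chartInputs_both 4 8 N p hpN hmem hgen A hA T
    c0 c1 hs0 peel0 peel1
  refine ⟨x, hx, T, c0, c1, h0, h1, peel0, peel1, isPlaceReductionModL_twoCharts T h0 h1, ?_, ?_, ?_⟩
  · rw [hs0]; rfl
  · rw [T.s_inv, hs0, coe_tF_inv 4 8 N hmem A, coeffMap_tqInv]
  · intro Y hY
    exact Fermat.Agent.ES.RED.RedMem16.coeffMap_residue_mem_fullC A p hA hpN Y hY

end Fermat.Agent.T1B.HolGeom93
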