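/-
T1B / brick H-GEOM (helper93), file Denoms: CLEARING DENOMINATORS (pure algebra).

`L` a field, `A : ValuationSubring L`, `F / L` a field, `t f : F`.  If `f` is integral over `L[t]`
then `γ f` is integral over `A[t]` for some `γ ∈ A`, `γ ≠ 0`, i.e. `γ f` lies in the chart
`ChartGeneric22.chart ↥A t`.
-/
import Mathlib
import Fermat.Agent.RED.PUR.ChartGeneric22

set_option autoImplicit false
set_option linter.unusedSectionVars false

open Polynomial

namespace Fermat.Agent.T1B.HolGeom93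

open Fermat.Agent.RED.PUR.ChartGeneric22

variable {L F : Type*} [Field L] [Field F] [Algebra L F] (A : ValuationSubring L)

/-- an element of `L[t]` becomes an element of `A[t]` after multiplication by a nonzero constant
of `A`. -/
theorem exists_const_mul_mem_adjoin (t : F) {c : F} (hc : c ∈ Algebra.adjoin L {t}) :
    ∃ γ : ↥A, γ ≠ 0 ∧ algebraMap L F (γ : L) * c ∈ Algebra.adjoin ↥A {t} := by
  have hconst : ∀ γ : ↥A, algebraMap L F (γ : L) ∈ Algebra.adjoin ↥A {t} := fun γ =>
    (Algebra.adjoin ↥A {t}).algebraMap_mem γ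
  induction hc using Algebra.adjoin_induction with
  | mem x hx =>
    rw [Set.mem_singleton_iff] at hx
    subst hx
    refine ⟨1, one_ne_zero, ?_⟩
    rw [OneMemClass.coe_one, map_one, one_mul]
    exact Algebra.self_mem_adjoin_singleton _ _
  | algebraMap a =>
    by_cases ha : a ∈ A
    · refine ⟨1, one_ne_zero, ?_⟩
      rw [OneMemClass.coe_one, map_one, one_mul]
      exact hconst ⟨a, ha⟩
    · have ha0 : a ≠ 0 := fun h => ha (h ▸ A.zero_mem)
      have hinv : a⁻¹ ∈ A := (A.mem_or_inv_mem a).resolve_left ha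
      refine ⟨⟨a⁻¹, hinv⟩, fun h => inv_ne_zero ha0 (congrArg Subtype.val h), ?_⟩
      rw [← map_mul]
      show algebraMap L F (a⁻¹ * a) ∈ _
      rw [inv_mul_cancel₀ ha0, map_one]
      exact one_mem _
  | add x y _ _ hx hy =>
    obtain ⟨γ₁, h₁, hx⟩ := hx
    obtain ⟨γ₂, h₂, hy⟩ := hy
    refine ⟨γ₁ * γ₂, mul_ne_zero h₁ h₂, ?_⟩
    have : algebraMap L F ((γ₁ * γ₂ : ↥A) : L) * (x + y) =
        algebraMap L F (γ₂ : L) * (algebraMap L F (γ₁ : L) * x) +
          algebraMap L F (γ₁ : L) * (algebraMap L F (γ₂ : L) * y) := by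
      rw [MulMemClass.coe_mul, map_mul]; ring
    rw [this]
    exact add_mem (mul_mem (hconst γ₂) hx) (mul_mem (hconst γ₁) hy)
  | mul x y _ _ hx hy =>
    obtain ⟨γ₁, h₁, hx⟩ := hx
    obtain ⟨γ₂, h₂, hy⟩ := hy
    refine ⟨γ₁ * γ₂, mul_ne_zero h₁ h₂, ?_⟩
    have : algebraMap L F ((γ₁ * γ₂ : ↥A) : L) * (x * y) =
        (algebraMap L F (γ₁ : L) * x) * (algebraMap L F (γ₂ : L) * y) := by
      rw [MulMemClass.coe_mul, map_mul]; ring
    rw [this]
    exact mul_mem hx hy

/-- **clearing denominators**: an element integral over `L[t]` has a nonzero `A`-multiple in the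
chart `chart ↥A t`. -/
theorem exists_const_mul_mem_chart (t : F) {f : F} (hf : IsIntegral (Algebra.adjoin L {t}) f) :
    ∃ γ : ↥A, γ ≠ 0 ∧ algebraMap L F (γ : L) * f ∈ chart ↥A t := by
  classical
  obtain ⟨P, hPm, hPc, hPf⟩ := (isIntegral_subalgebra_iff (Algebra.adjoin L {t}) f).mp hf
  have hch : ∀ i : ℕ, ∃ γ : ↥A, γ ≠ 0 ∧ algebraMap L F (γ : L) * P.coeff i ∈ Algebra.adjoin ↥A {t} :=
    fun i => exists_const_mul_mem_adjoin A t (hPc i)
  choose g hg0 hgmem using hch
  have hconst : ∀ γ : ↥A, algebraMap L F (γ : L) ∈ Algebra.adjoin ↥A {t} := fun γ =>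
    (Algebra.adjoin ↥A {t}).algebraMap_mem γ
  set d := P.natDegree with hd
  set γ : ↥A := ∏ i ∈ Finset.range d, g i with hγ
  have hγ0 : γ ≠ 0 := Finset.prod_ne_zero_iff.mpr fun i _ => hg0 i
  set h : F := algebraMap L F (γ : L) with hh
  have hcoeff : ∀ i < d, h * P.coeff i ∈ Algebra.adjoin ↥A {t} := by
    intro i hi
    have hi' : i ∈ Finset.range d := Finset.mem_range.mpr hi
    have h1 : γ = g i * ∏ j ∈ (Finset.range d).erase i, g j := by
      rw [hγ, Finset.mul_prod_erase _ _ hi']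
    have h2 : h * P.coeff i = algebraMap L F ((∏ j ∈ (Finset.range d).erase i, g j : ↥A) : L) *
        (algebraMap L F (g i : L) * P.coeff i) := by
      rw [hh, h1, MulMemClass.coe_mul, map_mul]; ring
    rw [h2]
    exact mul_mem (hconst _) (hgmem i)
  refine ⟨γ, hγ0, ?_⟩
  rw [mem_chart_iff, isIntegral_subalgebra_iff]
  refine ⟨scaleRoots P h, (monic_scaleRoots_iff h).mpr hPm, ?_, ?_⟩
  · intro i
    rw [coeff_scaleRoots, ← hd]
    rcases lt_trichotomy i d with hi | hi | hi
    · have h2 : h ^ (d - i) = h * h ^ (d - i - 1) := by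
        rw [← pow_succ']
        congr 1
        omega
      rw [h2, ← mul_assoc, mul_comm (P.coeff i) h]
      exact mul_mem (hcoeff i hi) (pow_mem (hconst γ) _)
    · subst hi
      have : P.coeff d = 1 := by rw [hd]; exact hPm.coeff_natDegree
      rw [this, Nat.sub_self, pow_zero, mul_one]
      exact one_mem _
    · rw [coeff_eq_zero_of_natDegree_lt (by omega), zero_mul]
      exact zero_mem _
  · have := scaleRoots_eval₂_eq_zero (p := P) (RingHom.id F) (r := f) (s := h)
      (by rwa [eval₂_id])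
    rwa [eval₂_id, RingHom.id_apply] at this

end Fermat.Agent.T1B.HolGeom93
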