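/-
T1B / brick H-GEOM (helper93), file 1: VALUES AT `∞` AND AT `∞̃ = Hol13.inftyPlaceC κ N`.

`κ` any field, `F̃ = modularFunctionFieldFullC κ N ⊆ κ((q))`; the place `∞̃` is helper13's
`Hol13.inftyPlaceC κ N` (`Hol13/PB0.lean`: `inftyPlaceC_ord`, `mem_inftyPlaceC_iff`).

* `mem_inftyPlaceC_of_coeff`, `coeff_eq_zero_of_mem_inftyPlaceC`: membership in `O_∞̃` by coefficients;
* `valueHom_inftyPlaceC`: the value at `∞̃` is the constant coefficient (`κ` algebraically closed);
* `valueHom_inftyPlace`: the value at `∞ = MW.NCA61.InfPlace.inftyPlace N` is the constant coefficient.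
Generic part: `embPlace_ord_eq'` (index one, characteristic free), `valueHom_embPlace`.
-/
import Mathlib
import Fermat.Agent.MW.NCA61.InfPlace
import Fermat.Agent.ES.RED.PlaceValue13
import Fermat.Agent.IG.AN.ModPoly3
import Fermat.Agent.T1B.Hol13.PB0

set_option autoImplicit false
set_option linter.unusedSectionVars false

open AlgebraicCurve ModularCurve HahnSeries

noncomputable section

namespace Fermat.Agent.T1B.HolGeom93

open Fermat.Agent.X0 Fermat.Agent.X0.FF Fermat.Agent.ES.RED.PlaceValue13 Fermat.Agent.T1B.Hol13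

/-! ### Generic: places of Laurent series embeddings -/

section Generic

variable {K F : Type*} [Field K] [Field F] [Algebra K F]

/-- If some element has `τ`-order `-1`, the place of `τ` has index one (characteristic free). -/
theorem embPlace_ord_eq' (τ : F →+* LaurentSeries K)
    (hτ : ∀ c : K, τ (algebraMap K F c) = HahnSeries.C c)
    (hnt : ∃ f, f ≠ 0 ∧ (τ f).order ≠ 0) {x : F} (hx0 : x ≠ 0) (hx : (τ x).order = -1)
    {f : F} (hf : f ≠ 0) : (LaurentPlace.embPlace τ hτ hnt).ord f = (τ f).order := by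
  obtain ⟨m, hm, hspec⟩ := LaurentPlace.embPlace_spec τ hτ hnt
  have h1 := hspec x hx0
  rw [hx] at h1
  have hdvd : (m : ℤ) ∣ 1 := ⟨-(LaurentPlace.embPlace τ hτ hnt).ord x, by linarith⟩
  have hm1 : (m : ℤ) = 1 := Int.eq_one_of_dvd_one (by positivity) hdvd
  have h2 := hspec f hf
  rw [hm1, one_mul] at h2
  exact h2.symm

/-- a nonzero Laurent series all of whose coefficients in degrees `≤ 0` vanish has positive
order. -/
theorem order_pos_of_coeff_eq_zero {R : Type*} [Zero R] {y : LaurentSeries R} (hy : y ≠ 0)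
    (h : ∀ n : ℤ, n ≤ 0 → y.coeff n = 0) : 0 < y.order := by
  by_contra hle
  rw [not_lt] at hle
  exact hy (HahnSeries.coeff_order_eq_zero.mp (h _ hle))

variable [IsAlgClosed K]

/-- **the value at the place of a Laurent series embedding of index one is the constant
coefficient.** -/
theorem valueHom_embPlace (τ : F →+* LaurentSeries K)
    (hτ : ∀ c : K, τ (algebraMap K F c) = HahnSeries.C c)
    (hnt : ∃ f, f ≠ 0 ∧ (τ f).order ≠ 0)
    (hord : ∀ f : F, f ≠ 0 → (LaurentPlace.embPlace τ hτ hnt).ord f = (τ f).order)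
    {x : F} (hx : IsGen K x) (f : F) (hf : f ∈ (LaurentPlace.embPlace τ hτ hnt).toValuationSubring) :
    valueHom hx (LaurentPlace.embPlace τ hτ hnt) ⟨f, hf⟩ = (τ f).coeff 0 := by
  rw [valueHom_eq_iff]
  by_cases h : f = algebraMap K F ((τ f).coeff 0)
  · exact Or.inl h
  right
  have hg : f - algebraMap K F ((τ f).coeff 0) ≠ 0 := sub_ne_zero.mpr h
  rw [hord _ hg]
  have hf0 : f ≠ 0 := by
    rintro rfl
    apply h
    rw [map_zero, HahnSeries.coeff_zero, map_zero]
  have hfo : 0 ≤ (τ f).order := (LaurentPlace.mem_embPlace_iff τ hτ hnt hf0).mp hf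
  apply order_pos_of_coeff_eq_zero ((map_ne_zero τ).mpr hg)
  intro n hn
  rw [map_sub, hτ, HahnSeries.coeff_sub]
  rcases hn.lt_or_eq with hlt | rfl
  · rw [HahnSeries.coeff_eq_zero_of_lt_order (lt_of_lt_of_le hlt hfo), HahnSeries.C_apply,
      HahnSeries.coeff_single_of_ne hlt.ne, sub_zero]
  · rw [HahnSeries.C_apply, HahnSeries.coeff_single_same, sub_self]

end Generic

/-! ### The place `∞̃ = Hol13.inftyPlaceC κ N` of the special fibre -/

section Special

variable (κ : Type*) [Field κ] (N : ℕ) [NeZero N]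

theorem order_jC : ((jC κ N : ↥(modularFunctionFieldFullC κ N)) : LaurentSeries κ).order = -1 :=
  Fermat.Agent.IG.AN.ModPoly3.order_jqModC κ

/-- membership in `O_∞̃` in terms of coefficients (no case distinction). -/
theorem mem_inftyPlaceC_of_coeff {f : ↥(modularFunctionFieldFullC κ N)}
    (h : ∀ n : ℤ, n < 0 → (f : LaurentSeries κ).coeff n = 0) :
    f ∈ (inftyPlaceC κ N).toValuationSubring := by
  by_cases hf : f = 0
  · subst hf; exact zero_mem _
  rw [mem_inftyPlaceC_iff κ N hf]
  by_contra hlt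
  rw [not_le] at hlt
  have hne : (f : LaurentSeries κ) ≠ 0 := fun h0 => hf (Subtype.ext h0)
  exact hne (HahnSeries.coeff_order_eq_zero.mp (h _ hlt))

theorem coeff_eq_zero_of_mem_inftyPlaceC {f : ↥(modularFunctionFieldFullC κ N)}
    (hf : f ∈ (inftyPlaceC κ N).toValuationSubring) {n : ℤ} (hn : n < 0) :
    (f : LaurentSeries κ).coeff n = 0 := by
  by_cases hf0 : f = 0
  · subst hf0; rfl
  exact HahnSeries.coeff_eq_zero_of_lt_order
    (lt_of_lt_of_le hn ((mem_inftyPlaceC_iff κ N hf0).mp hf))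

/-- **the value at `∞̃` is the constant coefficient.** -/
theorem valueHom_inftyPlaceC [IsAlgClosed κ] {xt : ↥(modularFunctionFieldFullC κ N)}
    (hxt : IsGen κ xt) (f : ↥(modularFunctionFieldFullC κ N))
    (hf : f ∈ (inftyPlaceC κ N).toValuationSubring) :
    valueHom hxt (inftyPlaceC κ N) ⟨f, hf⟩ = (f : LaurentSeries κ).coeff 0 :=
  valueHom_embPlace (inclC κ N) (inclC_algebraMap κ N) (exists_order_ne_zeroC κ N)
    (fun _ hg => inftyPlaceC_ord κ N hg) hxt f hf

end Special

/-! ### Values at `∞` in characteristic zero -/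

section Zero

open Fermat.Agent.MW.NCA61.InfPlace Fermat.Agent.ES.N34.ModEqBar23

variable (N : ℕ) [NeZero N]

/-- **the value at `∞` is the constant coefficient.** -/
theorem valueHom_inftyPlace {x : FF N} (hx : IsGen Kbar x) (f : FF N)
    (hf : f ∈ (inftyPlace N).toValuationSubring) :
    valueHom hx (inftyPlace N) ⟨f, hf⟩ = (f : LaurentSeries Kbar).coeff 0 :=
  valueHom_embPlace (valHom N) (valHom_const N) (exists_order_ne_zero N)
    (fun _ hg => inftyPlace_ord N hg) hx f hf

theorem mem_inftyPlace_of_coeff {f : FF N}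
    (h : ∀ n : ℤ, n < 0 → (f : LaurentSeries Kbar).coeff n = 0) :
    f ∈ (inftyPlace N).toValuationSubring := by
  by_cases hf : f = 0
  · subst hf; exact zero_mem _
  rw [mem_inftyPlace_iff N hf]
  by_contra hlt
  rw [not_le] at hlt
  have hne : (f : LaurentSeries Kbar) ≠ 0 := fun h0 => hf (Subtype.ext h0)
  exact hne (HahnSeries.coeff_order_eq_zero.mp (h _ hlt))

theorem coeff_eq_zero_of_mem_inftyPlace {f : FF N}
    (hf : f ∈ (inftyPlace N).toValuationSubring) {n : ℤ} (hn : n < 0) :
    (f : LaurentSeries Kbar).coeff n = 0 := by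
  by_cases hf0 : f = 0
  · subst hf0; rfl
  exact HahnSeries.coeff_eq_zero_of_lt_order
    (lt_of_lt_of_le hn ((mem_inftyPlace_iff N hf0).mp hf))

end Zero

end Fermat.Agent.T1B.HolGeom93
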