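/-
T1B / brick H-GEOM (helper93), file Norm: consequences of the two-chart model `IsModel A N T`
(`HolGeom93/Base`) for functions regular away from `∞`:

* `t_notMem_infty`         : the coordinate `t = T.S0.s` has a pole at `∞`;
* `exists_smul_mem_chart0` : **(G6)** `RegOff N f → ∃ γ ∈ A, γ ≠ 0, γ f ∈ T.S0.B`;
* `exists_norm`            : **(H5)** `RegOff N f → f ≠ 0 → f = δ · (A-integral with nonzero reduction)`;
* `red_s0_eq`, `exists_z0` : **(H4)** a zero `z0` of `t` has `T.r z0 ≠ ∞̃`.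
-/
import Mathlib
import Fermat.Agent.T1B.HolGeom93.Base
import Fermat.Agent.T1B.HolGeom93.Denoms
import Fermat.Agent.T1B.HolGeom93.InfC
import Fermat.Agent.RED.PUR.PlaceIntegral3
import Fermat.Agent.RED.PUR.TqOrder26

set_option autoImplicit false
set_option linter.unusedSectionVars false
set_option linter.style.haveILetI false
set_option synthInstance.maxHeartbeats 400000

open AlgebraicCurve ModularCurve HahnSeries

noncomputable section

namespace Fermat.Agent.T1B.HolGeom93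

open Fermat.Agent.X0 Fermat.Agent.X0.FF Fermat.Agent.ES.RED.PlaceValue13
open Fermat.Agent.ES.RED.Contract8 Fermat.Agent.ES.RED.TwoCharts8 Fermat.Agent.ES.RED.RedMain15
open Fermat.Agent.ES.RED.GaloisInst21 Fermat.Agent.ES.RED.SpecialInv25
open Fermat.Agent.RED.BASE.EtaQuot12 Fermat.Agent.RED.PUR.ChartGeneric22
open Fermat.Agent.MW.NCA61.InfPlace Fermat.Agent.T1B.Hol13

variable {A : ValuationSubring Kbar} {N : ℕ} [NeZero N]
  {x : FF N} {hx : IsGen Kbar x} {T : TwoCharts A hx ↥(modularFunctionFieldFullC (kA A) N)}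

/-- the coordinate `t` of chart 0 has a pole at `∞`. -/
theorem t_notMem_infty (hT : IsModel A N T) : T.S0.s ∉ (inftyPlace N).toValuationSubring := by
  rw [mem_inftyPlace_iff N T.s_ne, hT.coe_s0, Fermat.Agent.RED.PUR.TqOrder26.order_tq]
  decide

/-- **(G6)**: a function regular away from `∞` has a nonzero `A`-multiple in the chart ring of
chart 0. -/
theorem exists_smul_mem_chart0 (hT : IsModel A N T) {f : FF N} (hf : RegOff N f) :
    ∃ γ : ↥A, γ ≠ 0 ∧ algebraMap Kbar (FF N) (γ : Kbar) * f ∈ T.S0.B := by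
  have hint : f ∈ intRing Kbar T.S0.s := by
    refine Fermat.Agent.RED.PUR.PlaceIntegral3.mem_intRing_of_forall_place hT.in0.gen f ?_
    intro v hv
    refine hf v ?_
    rintro rfl
    exact t_notMem_infty hT hv
  obtain ⟨γ, hγ, hmem⟩ := exists_const_mul_mem_chart A T.S0.s hint
  exact ⟨γ, hγ, (hT.c0.mem_iff _).mpr hmem⟩

/-- **(H5)**: normalisation of the functions regular away from `∞`. -/
theorem exists_norm (hT : IsModel A N T) (f : FF N) (hf : RegOff N f) (hf0 : f ≠ 0) :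
    ∃ (δ : Kbar) (Y : LaurentSeries ↥A), δ ≠ 0 ∧
      (f : LaurentSeries Kbar) = δ • coeffMap A.subtype Y ∧
      coeffMap (IsLocalRing.residue ↥A) Y ≠ 0 := by
  obtain ⟨γ, hγ, hmem⟩ := exists_smul_mem_chart0 hT hf
  have hγ' : (γ : Kbar) ≠ 0 := fun h => hγ (Subtype.ext h)
  set b : ↥T.S0.B := ⟨algebraMap Kbar (FF N) (γ : Kbar) * f, hmem⟩ with hb
  have hb0 : b ≠ 0 := by
    intro h
    have h1 : algebraMap Kbar (FF N) (γ : Kbar) * f = 0 := congrArg Subtype.val h
    rcases mul_eq_zero.mp h1 with h2 | h2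
    · exact hγ' ((map_eq_zero _).mp h2)
    · exact hf0 h2
  obtain ⟨c, b', hcb, hred⟩ := T.S0.sat b hb0
  have hc0 : (c : Kbar) ≠ 0 := by
    intro h
    apply hb0
    apply Subtype.ext
    rw [hcb, h, map_zero, zero_mul]
    rfl
  obtain ⟨Y, hY⟩ := hT.c0.exists_series b'
  refine ⟨(γ : Kbar)⁻¹ * (c : Kbar), Y, mul_ne_zero (inv_ne_zero hγ') hc0, ?_, ?_⟩
  · have h1 : algebraMap Kbar (FF N) (γ : Kbar) * f = algebraMap Kbar (FF N) (c : Kbar) * (b' : FF N) :=
      hcb
    have h2 : f = algebraMap Kbar (FF N) ((γ : Kbar)⁻¹ * (c : Kbar)) * (b' : FF N) := by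
      rw [map_mul, mul_assoc, ← h1, ← mul_assoc, ← map_mul, inv_mul_cancel₀ hγ', map_one, one_mul]
    have h3 : algebraMap Kbar (LaurentSeries Kbar) ((γ : Kbar)⁻¹ * (c : Kbar)) =
        HahnSeries.C ((γ : Kbar)⁻¹ * (c : Kbar)) := by
      rw [algebraMap_laurentSeries_eq_single]
      rfl
    rw [hY, ← HahnSeries.C_mul_eq_smul, ← h3]
    conv_lhs => rw [h2]
    rfl
  · intro h
    apply hred
    apply Subtype.ext
    rw [hT.c0.red_eq b' Y hY, h]
    rfl

/-- the reduced coordinate of chart 0 is `t̃ = tq κ 4 8`. -/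
theorem red_s0_eq (hT : IsModel A N T) :
    ((T.S0.red T.S0.sB : ↥(modularFunctionFieldFullC (kA A) N)) : LaurentSeries (kA A)) =
      tq (kA A) 4 8 := by
  have hY : coeffMap A.subtype (tq ↥A 4 8) =
      (((T.S0.sB : ↥T.S0.B) : FF N) : LaurentSeries Kbar) := by
    rw [coeffMap_tq]
    exact hT.coe_s0.symm
  rw [hT.c0.red_eq T.S0.sB _ hY, coeffMap_tq]

/-- **(H4)**: a zero of `t` is not mapped to `∞̃`. -/
theorem exists_z0 (hT : IsModel A N T) :
    ∃ z0 : Place Kbar (FF N), T.r z0 ≠ inftyPlaceC (kA A) N := by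
  classical
  have hgen := hT.in0.gen
  -- a zero of `t`
  obtain ⟨z0, hz0⟩ : ∃ z0 : Place Kbar (FF N), 0 < z0.ord T.S0.s := by
    by_contra hno
    push Not at hno
    have h1 := FF.sum_ord_zeros hgen
    have h2 : (∑ᶠ (v : Place Kbar (FF N)) (_ : 0 < v.ord T.S0.s), v.ord T.S0.s) = 0 := by
      apply finsum_eq_zero_of_forall_eq_zero
      intro v
      rw [finsum_eq_if, if_neg (not_lt.mpr (hno v))]
    rw [h2] at h1
    haveI := hgen.finite
    have h3 : (0 : ℤ) < (Module.finrank ↥(IntermediateField.adjoin Kbar {T.S0.s}) (FF N) : ℤ) := by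
      exact_mod_cast Module.finrank_pos
    exact absurd h1 (ne_of_lt h3)
  refine ⟨z0, ?_⟩
  have hmem : T.S0.s ∈ z0.toValuationSubring := FF.mem_of_ord_nonneg _ hz0.le
  have hin : T.S0.InChart z0 := by
    refine ⟨hmem, ?_⟩
    have : valueHom hx z0 ⟨T.S0.s, hmem⟩ = 0 :=
      (valueHom_eq_zero_iff_ord hx z0 _).mpr (Or.inr hz0)
    rw [this]
    exact A.zero_mem
  intro h
  have h1 : T.S0.red T.S0.sB ∈ (T.r z0).toValuationSubring := by
    rw [T.r_eq0 z0 hin]
    exact red_mem_rAt T.places0 T.tr0 z0 hin _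
  rw [h, mem_inftyPlaceC_iff (kA A) N T.red_s0_ne_zero, red_s0_eq hT,
    Fermat.Agent.RED.PUR.TqOrder26.order_tq] at h1
  exact absurd h1 (by decide)

end Fermat.Agent.T1B.HolGeom93
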