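/-
T1B / brick H-GEOM (helper93), file Geom: THE CONTRACT between the geometry of the ES/RED model and the
slices (P-B) (`HolGeom93/PBCore`, `PB`) and (P-C) (`HSemi32/Sat`) of brick H, as ONE structure
`Geom A N r` on a map `r : Place ℚbar (FF N) → Place κ F̃` (`κ = kA A`, `F̃ = modularFunctionFieldFullC κ N`,
`∞ = MW.NCA61.InfPlace.inftyPlace N`, `∞̃ = Hol13.inftyPlaceC κ N`):

* `red`   (H1/G3) : `IsPlaceReductionAlong A (residue A) N r` (Prelude shape);
* `mem`   (H2)    : reductions of `A`-integral elements of `F` lie in `F̃`;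
* `infty` (H3/G1) : `r ∞ = ∞̃`;
* `z0`    (H4)    : some place is not mapped to `∞̃`;
* `norm`  (H5)    : every nonzero `f` regular away from `∞` is `δ · (A-integral with nonzero reduction)`;
* `lift`  (G4)    : a unit `u` at `∞̃` is the reduction of an `A`-integral `ũ ∈ F` without zero or pole on
                    the whole residue disc `r⁻¹(∞̃)`;
* `gen`           : `F̃ / κ` has a generator (so that `PlaceValue13.valueHom` is available on `F̃`).

`exists_geom` (file `HolGeom93/Main`): for `4 ∣ N`, `p ∤ N`, `A` over `p` there is such an `r`.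
-/
import Mathlib
import Fermat.Agent.T1B.Hol13.PB0
import Fermat.Agent.ES.RED.PlaceValue13

set_option autoImplicit false

open AlgebraicCurve ModularCurve HahnSeries

noncomputable section

namespace Fermat.Agent.T1B.HolGeom93

open Fermat.Agent.X0 Fermat.Agent.X0.FF Fermat.Agent.ES.RED.Setup8
open Fermat.Agent.MW.NCA61.InfPlace Fermat.Agent.T1B.Hol13

/-- **The geometric contract of brick H.** -/
structure Geom (A : ValuationSubring Kbar) (N : ℕ) [NeZero N]
    (r : Place Kbar (FF N) → Place (kA A) ↥(modularFunctionFieldFullC (kA A) N)) : Prop where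
  red : IsPlaceReductionAlong A (IsLocalRing.residue ↥A) N r
  mem : ∀ Y : LaurentSeries ↥A, coeffMap A.subtype Y ∈ modularFunctionFieldBar N →
    coeffMap (IsLocalRing.residue ↥A) Y ∈ modularFunctionFieldFullC (kA A) N
  infty : r (inftyPlace N) = inftyPlaceC (kA A) N
  z0 : ∃ z0 : Place Kbar (FF N), r z0 ≠ inftyPlaceC (kA A) N
  norm : ∀ f : FF N, RegOff N f → f ≠ 0 → ∃ (δ : Kbar) (Y : LaurentSeries ↥A), δ ≠ 0 ∧
    (f : LaurentSeries Kbar) = δ • coeffMap A.subtype Y ∧ coeffMap (IsLocalRing.residue ↥A) Y ≠ 0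
  lift : ∀ u : ↥(modularFunctionFieldFullC (kA A) N), u ≠ 0 →
    ((u : ↥(modularFunctionFieldFullC (kA A) N)) : LaurentSeries (kA A)).order = 0 →
    ∃ (y : LaurentSeries ↥A) (hy : coeffMap A.subtype y ∈ modularFunctionFieldBar N),
      coeffMap (IsLocalRing.residue ↥A) y = (u : LaurentSeries (kA A)) ∧
      ∀ z : Place Kbar (FF N), r z = inftyPlaceC (kA A) N →
        z.ord (⟨coeffMap A.subtype y, hy⟩ : FF N) = 0
  gen : ∃ xt : ↥(modularFunctionFieldFullC (kA A) N), IsGen (kA A) xt

end Fermat.Agent.T1B.HolGeom93
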