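/-
T1B / brick H-GEOM (helper93), file PBCore: THE CORE OF (P-B) — "a logarithmic differential `dlog u` on the
special fibre with `p ∣ div u` is orthogonal to the reductions of the `A`-integral functions regular
away from `∞`", from the characteristic zero residue formula `Hol13.RES2 N` and an abstract reduction
map `r` of places with the properties (G1)–(G4):

* `hr   : IsPlaceReductionAlong A (residue A) N r`            (G3)
* `hinf : r ∞ = ∞̃`                                           (G1)
* `hmem : reductions of `A`-integral elements of `F` lie in `F̃`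
* `hlift`: units at `∞̃` lift to functions without zero or pole on the residue disc of `∞`   (G4)
* `hval` : values of `A`-integral functions regular away from `∞` at `z` with `r z ≠ ∞̃`      (G2)

Pure algebra on Laurent series: `exists_mul_eq_one_of_coeff`, `dlog_coeffMap_of_mul_eq_one`,
`pair_coeffMap`; normalisation `exists_normalised`.
-/
import Mathlib
import Fermat.Agent.T1B.Hol13.Plan
import Fermat.Agent.T1B.HolGeom93.InfC
import Fermat.Agent.RED.TOP.FbarFacts20

set_option autoImplicit false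
set_option linter.unusedSectionVars false
set_option linter.style.haveILetI false

open AlgebraicCurve ModularCurve HahnSeries

noncomputable section

namespace Fermat.Agent.T1B.HolGeom93

open Fermat.Agent.X0 Fermat.Agent.X0.FF Fermat.Agent.ES.RED.PlaceValue13
open Fermat.Agent.ES.RED.Setup8 Fermat.Agent.MW.NCA61.InfPlace
open Fermat.Agent.T1B.Hol13 Fermat.Agent.T1B.Hecke7 Fermat.Agent.IG.PR.Theta20

/-! ### Algebra of Laurent series -/

section Series

variable {R : Type*} [CommRing R]

/-- a Laurent series without polar part and with unit constant coefficient is invertible. -/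
theorem exists_mul_eq_one_of_coeff (Y : LaurentSeries R) (hneg : ∀ n : ℤ, n < 0 → Y.coeff n = 0)
    (h0 : IsUnit (Y.coeff 0)) : ∃ Z : LaurentSeries R, Y * Z = 1 := by
  set P : PowerSeries R := PowerSeries.mk fun n => Y.coeff (n : ℤ) with hP
  have hY : HahnSeries.ofPowerSeries ℤ R P = Y := by
    ext k
    rcases le_or_gt 0 k with hk | hk
    · lift k to ℕ using hk
      rw [HahnSeries.ofPowerSeries_apply_coeff, hP, PowerSeries.coeff_mk]
    · rw [ofPowerSeries_coeff_of_neg _ hk, hneg k hk]
  have hu : IsUnit P := by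
    rw [PowerSeries.isUnit_iff_constantCoeff, hP]
    have : PowerSeries.constantCoeff (PowerSeries.mk fun n : ℕ => Y.coeff (n : ℤ)) = Y.coeff 0 := by
      rw [← PowerSeries.coeff_zero_eq_constantCoeff_apply, PowerSeries.coeff_mk]
      rfl
    rw [this]
    exact h0
  obtain ⟨Q, hQ⟩ := hu.exists_right_inv
  refine ⟨HahnSeries.ofPowerSeries ℤ R Q, ?_⟩
  rw [← hY, ← map_mul, hQ, map_one]

/-- `⟨·,·⟩` commutes with coefficientwise maps. -/
theorem pair_coeffMap {S : Type*} [CommRing S] (φ : R →+* S) (X Y : LaurentSeries R) :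
    pair (coeffMap φ X) (coeffMap φ Y) = φ (pair X Y) := by
  unfold pair
  rw [← map_mul, coeffMap_coeff]

/-- the logarithmic derivative of the image of an invertible series. -/
theorem dlog_coeffMap_of_mul_eq_one {k : Type*} [Field k] (φ : R →+* k) {Y Z : LaurentSeries R}
    (h : Y * Z = 1) : dlog (coeffMap φ Y) = coeffMap φ (theta Y * Z) := by
  have h1 : coeffMap φ Y * coeffMap φ Z = 1 := by rw [← map_mul, h, map_one]
  have h2 : coeffMap φ Z = (coeffMap φ Y)⁻¹ := eq_inv_of_mul_eq_one_right h1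
  rw [dlog_def, map_mul, coeffMap_theta, h2]

end Series

/-! ### Normalisation at `∞̃` -/

section Normalise

variable {κ : Type*} [Field κ] {N : ℕ} [NeZero N] {p : ℕ}

/-- multiplying `u` by a `p`-th power we may assume that `u` is a unit at `∞̃`. -/
theorem exists_normalised [CharP κ p] (u : ↥(modularFunctionFieldFullC κ N)) (hu : u ≠ 0)
    (hdiv : ∀ v : Place κ ↥(modularFunctionFieldFullC κ N), (p : ℤ) ∣ v.ord u) :
    ∃ u' : ↥(modularFunctionFieldFullC κ N), u' ≠ 0 ∧
      ((u' : ↥(modularFunctionFieldFullC κ N)) : LaurentSeries κ).order = 0 ∧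
      dlog ((u' : ↥(modularFunctionFieldFullC κ N)) : LaurentSeries κ) =
        dlog ((u : ↥(modularFunctionFieldFullC κ N)) : LaurentSeries κ) ∧
      ∀ v : Place κ ↥(modularFunctionFieldFullC κ N), (p : ℤ) ∣ v.ord u' := by
  obtain ⟨m, hm⟩ := hdiv (inftyPlaceC κ N)
  set g : ↥(modularFunctionFieldFullC κ N) := (jC κ N) ^ m with hg
  have hg0 : g ≠ 0 := zpow_ne_zero _ (jC_ne_zero κ N)
  have hgp0 : g ^ p ≠ 0 := pow_ne_zero _ hg0
  have hu'0 : u * g ^ p ≠ 0 := mul_ne_zero hu hgp0
  have hordg : ∀ v : Place κ ↥(modularFunctionFieldFullC κ N),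
      v.ord (u * g ^ p) = v.ord u + (p : ℤ) * v.ord g := by
    intro v
    rw [Place.ord_mul v hu hgp0, ← zpow_natCast, Place.ord_zpow]
  refine ⟨u * g ^ p, hu'0, ?_, ?_, ?_⟩
  · rw [← inftyPlaceC_ord κ N hu'0, hordg, hm, hg, Place.ord_zpow,
      inftyPlaceC_ord κ N (jC_ne_zero κ N)]
    have : ((jC κ N : ↥(modularFunctionFieldFullC κ N)) : LaurentSeries κ).order = -1 :=
      order_jC κ N
    rw [this]
    ring
  · have hcoe : ((u * g ^ p : ↥(modularFunctionFieldFullC κ N)) : LaurentSeries κ) =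
        (u : LaurentSeries κ) * ((g : LaurentSeries κ)) ^ p := rfl
    rw [hcoe, dlog_mul (fun h => hu (Subtype.ext h))
      (pow_ne_zero _ (fun h => hg0 (Subtype.ext h))), dlog_pow_char, add_zero]
  · intro v
    rw [hordg]
    exact dvd_add (hdiv v) (dvd_mul_right _ _)

end Normalise

/-! ### The core -/

section Core

variable {A : ValuationSubring Kbar} {N : ℕ} [NeZero N] {p : ℕ}
  [IsAlgClosed (kA A)] [CharP (kA A) p]
  {r : Place Kbar (FF N) → Place (kA A) ↥(modularFunctionFieldFullC (kA A) N)}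
  {xt : ↥(modularFunctionFieldFullC (kA A) N)} (hxt : IsGen (kA A) xt)
  (hr : IsPlaceReductionAlong A (IsLocalRing.residue ↥A) N r)
  (hinf : r (inftyPlace N) = inftyPlaceC (kA A) N)
  (hmem : ∀ Y : LaurentSeries ↥A, coeffMap A.subtype Y ∈ modularFunctionFieldBar N →
    coeffMap (IsLocalRing.residue ↥A) Y ∈ modularFunctionFieldFullC (kA A) N)
  (hlift : ∀ u : ↥(modularFunctionFieldFullC (kA A) N), u ≠ 0 →
    ((u : ↥(modularFunctionFieldFullC (kA A) N)) : LaurentSeries (kA A)).order = 0 →
    ∃ (y : LaurentSeries ↥A) (hy : coeffMap A.subtype y ∈ modularFunctionFieldBar N),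
      coeffMap (IsLocalRing.residue ↥A) y = (u : LaurentSeries (kA A)) ∧
      ∀ z : Place Kbar (FF N), r z = inftyPlaceC (kA A) N →
        z.ord (⟨coeffMap A.subtype y, hy⟩ : FF N) = 0)
  (hval : ∀ (Y : LaurentSeries ↥A) (hY : coeffMap A.subtype Y ∈ modularFunctionFieldBar N)
    (hreg : RegOff N (⟨coeffMap A.subtype Y, hY⟩ : FF N))
    (z : Place Kbar (FF N)) (hz : z ≠ inftyPlace N), r z ≠ inftyPlaceC (kA A) N →
    ∃ (c : ↥A) (hft : (⟨coeffMap (IsLocalRing.residue ↥A) Y, hmem Y hY⟩ :
        ↥(modularFunctionFieldFullC (kA A) N)) ∈ (r z).toValuationSubring),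
      valueHom (HasCanDivInst.isGen N) z ⟨⟨coeffMap A.subtype Y, hY⟩, hreg z hz⟩ = (c : Kbar) ∧
      valueHom hxt (r z) ⟨_, hft⟩ = IsLocalRing.residue ↥A c)

include hxt hr hinf hmem hlift hval in
/-- **(P-B), normalised case**: `u` a unit at `∞̃`. -/
theorem pair_dlog_eq_zero_of_order (hres : RES2 N)
    (u : ↥(modularFunctionFieldFullC (kA A) N)) (hu : u ≠ 0)
    (hord0 : ((u : ↥(modularFunctionFieldFullC (kA A) N)) : LaurentSeries (kA A)).order = 0)
    (hdiv : ∀ v : Place (kA A) ↥(modularFunctionFieldFullC (kA A) N), (p : ℤ) ∣ v.ord u)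
    (f : ↥(gaussA A (modularFunctionFieldBar N))) (hf : RegOff N (f : FF N)) :
    pair (dlog ((u : ↥(modularFunctionFieldFullC (kA A) N)) : LaurentSeries (kA A)))
      (redA A (modularFunctionFieldBar N) f) = 0 := by
  classical
  obtain ⟨Yu, hYu, hred, hz0⟩ := hlift u hu hord0
  set ut : FF N := ⟨coeffMap A.subtype Yu, hYu⟩ with hut
  have hu0 : ((u : ↥(modularFunctionFieldFullC (kA A) N)) : LaurentSeries (kA A)) ≠ 0 :=
    fun h => hu (Subtype.ext h)
  have hYu0 : Yu ≠ 0 := by
    rintro rfl
    rw [map_zero] at hred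
    exact hu0 hred.symm
  have hut0 : ut ≠ 0 := by
    intro h
    apply hYu0
    apply coeffMap_subtype_injective A
    rw [map_zero]
    exact congrArg Subtype.val h
  -- the `q`-expansion of the lift is an invertible power series
  have hYuo : Yu.order = 0 := by
    rw [← order_coeffMap_of_injective A.subtype Subtype.val_injective Yu]
    have h1 := inftyPlace_ord N hut0
    rw [hz0 _ hinf] at h1
    exact h1.symm
  have hc0 : IsUnit (Yu.coeff 0) := by
    rw [← IsLocalRing.residue_ne_zero_iff_isUnit]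
    have h1 : (coeffMap (IsLocalRing.residue ↥A) Yu).coeff 0 = IsLocalRing.residue ↥A (Yu.coeff 0) :=
      coeffMap_coeff _ _ _
    rw [← h1, hred, ← hord0]
    exact fun h => hu0 (HahnSeries.coeff_order_eq_zero.mp h)
  obtain ⟨Z, hZ⟩ := exists_mul_eq_one_of_coeff Yu
    (fun n hn => HahnSeries.coeff_eq_zero_of_lt_order (by rw [hYuo]; exact hn)) hc0
  set W : LaurentSeries ↥A := theta Yu * Z with hW
  have hW0 : dlog ((ut : FF N) : LaurentSeries Kbar) = coeffMap A.subtype W :=
    dlog_coeffMap_of_mul_eq_one A.subtype hZ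
  have hWk : dlog ((u : ↥(modularFunctionFieldFullC (kA A) N)) : LaurentSeries (kA A)) =
      coeffMap (IsLocalRing.residue ↥A) W := by
    rw [← hred]
    exact dlog_coeffMap_of_mul_eq_one (IsLocalRing.residue ↥A) hZ
  -- the test function
  set Yf : LaurentSeries ↥A := liftA A (modularFunctionFieldBar N) f with hYfdef
  have hYf : coeffMap A.subtype Yf = (((f : ↥(gaussA A (modularFunctionFieldBar N))) : FF N) :
      LaurentSeries Kbar) := coeffMap_liftA A (modularFunctionFieldBar N) f
  have hYfmem : coeffMap A.subtype Yf ∈ modularFunctionFieldBar N := by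
    rw [hYf]; exact (f : FF N).2
  have hfeq : (⟨coeffMap A.subtype Yf, hYfmem⟩ : FF N) = (f : FF N) := Subtype.ext hYf
  have hreg : RegOff N (⟨coeffMap A.subtype Yf, hYfmem⟩ : FF N) := by rw [hfeq]; exact hf
  -- the residue formula in characteristic zero
  have h2 := hres ut (f : FF N) hut0 hf
  rw [hW0, ← hYf, pair_coeffMap] at h2
  have hgoal : pair (dlog ((u : ↥(modularFunctionFieldFullC (kA A) N)) : LaurentSeries (kA A)))
      (redA A (modularFunctionFieldBar N) f) = IsLocalRing.residue ↥A (pair W Yf) := by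
    rw [hWk]
    show pair (coeffMap (IsLocalRing.residue ↥A) W) (coeffMap (IsLocalRing.residue ↥A) Yf) = _
    rw [pair_coeffMap]
  rw [hgoal]
  -- the divisor of the lift and its image
  haveI := Fermat.Agent.RED.TOP.FbarFacts20.hasPrincipalDivisors_bar N
  obtain ⟨D, hD, -⟩ := HasPrincipalDivisors.exists_divisor (K := Kbar) ut hut0
  have hR : ∀ Q, Finsupp.mapDomain r D Q = Q.ord u := by
    intro Q
    have := hr.2 Yu hYu (hmem Yu hYu) (by rw [hred]; exact hu0) D hD Q
    rw [this]
    congr 1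
    exact Subtype.ext hred
  -- values
  set redf : ↥(modularFunctionFieldFullC (kA A) N) :=
    ⟨coeffMap (IsLocalRing.residue ↥A) Yf, hmem Yf hYfmem⟩ with hredf
  set φ : Place (kA A) ↥(modularFunctionFieldFullC (kA A) N) → kA A := fun Q =>
    if h : redf ∈ Q.toValuationSubring then valueHom hxt Q ⟨redf, h⟩ else 0 with hφ
  have hsupp : ∀ z : Place Kbar (FF N), D z ≠ 0 → z ≠ inftyPlace N ∧ r z ≠ inftyPlaceC (kA A) N := by
    intro z hz
    rw [hD z] at hz
    have h1 : r z ≠ inftyPlaceC (kA A) N := fun h => hz (hz0 z h)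
    exact ⟨fun h => h1 (by rw [h, hinf]), h1⟩
  have hex : ∀ z : Place Kbar (FF N), D z ≠ 0 → ∃ c : ↥A,
      (∀ hz : z ≠ inftyPlace N,
        valueHom (HasCanDivInst.isGen N) z ⟨(f : FF N), hf z hz⟩ = (c : Kbar)) ∧
      IsLocalRing.residue ↥A c = φ (r z) := by
    intro z hz
    obtain ⟨hz1, hz2⟩ := hsupp z hz
    obtain ⟨c, hft, hv1, hv2⟩ := hval Yf hYfmem hreg z hz1 hz2
    refine ⟨c, fun _ => ?_, ?_⟩
    · rw [← hv1]
      congr 1
      exact Subtype.ext hfeq.symm
    · rw [hφ]
      simp only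
      rw [dif_pos hft, hv2]
  set cfun : Place Kbar (FF N) → ↥A := fun z =>
    if h : D z ≠ 0 then (hex z h).choose else 0 with hcfun
  have hc1 : ∀ (z : Place Kbar (FF N)) (hz : z ≠ inftyPlace N), D z ≠ 0 →
      valueHom (HasCanDivInst.isGen N) z ⟨(f : FF N), hf z hz⟩ = (cfun z : Kbar) := by
    intro z hz hDz
    rw [hcfun]
    simp only
    rw [dif_pos hDz]
    exact (hex z hDz).choose_spec.1 hz
  have hc2 : ∀ z : Place Kbar (FF N), D z ≠ 0 → IsLocalRing.residue ↥A (cfun z) = φ (r z) := by
    intro z hDz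
    rw [hcfun]
    simp only
    rw [dif_pos hDz]
    exact (hex z hDz).choose_spec.2
  -- the finite sum
  have hsum : (∑ᶠ z : {z : Place Kbar (FF N) // z ≠ inftyPlace N},
      (z.1.ord ut) • valueHom (HasCanDivInst.isGen N) z.1 ⟨(f : FF N), hf z.1 z.2⟩) =
      ((∑ z ∈ D.support, D z • cfun z : ↥A) : Kbar) := by
    set ψ : Place Kbar (FF N) → Kbar := fun z => D z • (cfun z : Kbar) with hψ
    have h1 : ∀ z : {z : Place Kbar (FF N) // z ≠ inftyPlace N},
        (z.1.ord ut) • valueHom (HasCanDivInst.isGen N) z.1 ⟨(f : FF N), hf z.1 z.2⟩ = ψ z.1 := by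
      intro z
      rw [hψ]
      simp only
      by_cases hDz : D z.1 = 0
      · rw [hDz, ← hD z.1, hDz, zero_smul, zero_smul]
      · rw [hc1 z.1 z.2 hDz, hD z.1]
    rw [finsum_congr h1, finsum_subtype_eq_finsum_cond (f := ψ) (fun z => z ≠ inftyPlace N)]
    have h3 : ∀ z : Place Kbar (FF N), (∑ᶠ (_ : z ≠ inftyPlace N), ψ z) = ψ z := by
      intro z
      rw [finsum_eq_if]
      split_ifs with h
      · rfl
      · rw [not_not] at h
        rw [hψ]
        simp only
        have : D z = 0 := by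
          by_contra hne
          exact (hsupp z hne).1 h
        rw [this, zero_smul]
    rw [finsum_congr h3, finsum_eq_sum_of_support_subset ψ (s := D.support)]
    · rw [hψ]
      push_cast
      rfl
    · intro z hz
      rw [Function.mem_support, hψ] at hz
      rw [Finset.mem_coe, Finsupp.mem_support_iff]
      intro h0
      apply hz
      simp only
      rw [h0, zero_smul]
  rw [hsum] at h2
  have h4 : pair W Yf = -(∑ z ∈ D.support, D z • cfun z) := by
    apply Subtype.ext
    rw [A.coe_neg] 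
    exact h2
  rw [h4, map_neg, neg_eq_zero, map_sum]
  have h5 : ∀ z ∈ D.support, IsLocalRing.residue ↥A (D z • cfun z) = D z • φ (r z) := by
    intro z hz
    rw [map_zsmul, hc2 z (Finsupp.mem_support_iff.mp hz)]
  rw [Finset.sum_congr rfl h5]
  have h6 : (∑ z ∈ D.support, D z • φ (r z)) = (Finsupp.mapDomain r D).sum fun Q n => n • φ Q := by
    have h7 := Finsupp.sum_mapDomain_index (f := r) (s := D)
      (h := fun (Q : Place (kA A) ↥(modularFunctionFieldFullC (kA A) N)) (n : ℤ) => n • φ Q)
      (fun Q => zero_smul ℤ (φ Q)) (fun Q m₁ m₂ => add_smul m₁ m₂ (φ Q))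
    rw [h7]
    rfl
  rw [h6, Finsupp.sum]
  apply Finset.sum_eq_zero
  intro Q _
  rw [hR Q]
  obtain ⟨k, hk⟩ := hdiv Q
  rw [hk, zsmul_eq_mul]
  push_cast
  rw [CharP.cast_eq_zero (kA A) p, zero_mul, zero_mul]

include hxt hr hinf hmem hlift hval in
/-- **(P-B)** from the characteristic zero residue formula and the reduction of places. -/
theorem pb_of_geom (hres : RES2 N) : PB N A p := by
  rintro w ⟨u, hu, rfl, hdiv⟩ y ⟨f, hf, rfl⟩
  obtain ⟨u', hu', hord, hdlog, hdiv'⟩ := exists_normalised (p := p) u hu hdiv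
  rw [← hdlog]
  exact pair_dlog_eq_zero_of_order hxt hr hinf hmem hlift hval hres u' hu' hord hdiv' f hf

end Core

end Fermat.Agent.T1B.HolGeom93
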