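/-
T1B / brick H-GEOM (helper93), file Chart93: (G1) `T.r ∞ = ∞̃` and (G4) the lift of units at `∞̃`,
for the two-chart model `IsModel A N T` (`HolGeom93/Base`).

* `inChart1_infty`  : `∞` lies in chart 1 (coordinate `t⁻¹ = q + …`);
* `coeff_neg_eq_zero`, `chi_infty_eq` : elements of the cusp chart ring `B₁` have power series
  `q`-expansions `Y ∈ A[[q]]`, and `χ_∞ b = res (Y₀)`;
* `red_mem_inftyC`  : `red b ∈ O_∞̃` for `b ∈ B₁`;
* `r_infty`         : **(G1)** `T.r ∞ = ∞̃` (by (R1u) `TwoCharts8.eq_rAt`);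
* `chi_eq_of_r_eq`  : a place `z` with `T.r z = ∞̃` lies in chart 1 and `χ_z = χ_∞` on `B₁`;
* `exists_lift`     : **(G4)**.
-/
import Mathlib
import Fermat.Agent.T1B.HolGeom93.Base
import Fermat.Agent.T1B.HolGeom93.InfC
import Fermat.Agent.T1B.HolGeom93.PBCore
import Fermat.Agent.RED.PUR.TqOrder26

set_option autoImplicit false
set_option linter.unusedSectionVars false
set_option linter.style.haveILetI false
set_option synthInstance.maxHeartbeats 400000

open AlgebraicCurve ModularCurve HahnSeries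

noncomputable section

namespace Fermat.Agent.T1B.HolGeom93

open Fermat.Agent.X0 Fermat.Agent.X0.FF Fermat.Agent.ES.RED.PlaceValue13
open Fermat.Agent.ES.RED.Contract8 Fermat.Agent.ES.RED.TwoCharts8 Fermat.Agent.ES.RED.RedMain15
open Fermat.Agent.ES.RED.GaloisInst21 Fermat.Agent.ES.RED.SpecialInv25
open Fermat.Agent.RED.BASE.EtaQuot12
open Fermat.Agent.MW.NCA61.InfPlace Fermat.Agent.T1B.Hol13

variable {A : ValuationSubring Kbar} {N : ℕ} [NeZero N]
  {x : FF N} {hx : IsGen Kbar x} {T : TwoCharts A hx ↥(modularFunctionFieldFullC (kA A) N)}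

/-- values at equal places agree. -/
theorem valueHom_congr_place {K F : Type*} [Field K] [IsAlgClosed K] [Field F] [Algebra K F]
    {xg : F} (hxg : IsGen K xg) {Q Q' : Place K F} (h : Q = Q') {y : F}
    (hy : y ∈ Q.toValuationSubring) (hy' : y ∈ Q'.toValuationSubring) :
    valueHom hxg Q ⟨y, hy⟩ = valueHom hxg Q' ⟨y, hy'⟩ := by
  subst h
  rfl

theorem coe_s1_coeff_of_le (hT : IsModel A N T) {n : ℤ} (hn : n ≤ 0) :
    ((T.S1.s : FF N) : LaurentSeries Kbar).coeff n = 0 := by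
  rw [hT.coe_s1, tqInv_eq_inv]
  apply HahnSeries.coeff_eq_zero_of_lt_order
  rw [Fermat.Agent.RED.PUR.TqOrder26.order_tq_inv]
  omega

/-- `∞` lies in chart 1. -/
theorem inChart1_infty (hT : IsModel A N T) : T.S1.InChart (inftyPlace N) := by
  have hmem : T.S1.s ∈ (inftyPlace N).toValuationSubring :=
    mem_inftyPlace_of_coeff N fun n hn => coe_s1_coeff_of_le hT hn.le
  refine ⟨hmem, ?_⟩
  rw [valueHom_inftyPlace N hx _ hmem, coe_s1_coeff_of_le hT le_rfl]
  exact A.zero_mem

/-- the `q`-expansion of an element of the cusp chart ring is a power series. -/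
theorem coeff_neg_eq_zero (hT : IsModel A N T) (b : ↥T.S1.B) {Y : LaurentSeries ↥A}
    (hY : coeffMap A.subtype Y = (((b : ↥T.S1.B) : FF N) : LaurentSeries Kbar)) {n : ℤ}
    (hn : n < 0) : Y.coeff n = 0 := by
  apply Subtype.ext
  have h2 : (((b : ↥T.S1.B) : FF N) : LaurentSeries Kbar).coeff n = 0 :=
    coeff_eq_zero_of_mem_inftyPlace N (T.S1.mem_place _ (inChart1_infty hT) b b.2) hn
  rw [← hY, coeffMap_coeff] at h2
  exact h2

/-- `χ_∞ b` is the residue of the constant coefficient. -/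
theorem chi_infty_eq (hT : IsModel A N T) (b : ↥T.S1.B) {Y : LaurentSeries ↥A}
    (hY : coeffMap A.subtype Y = (((b : ↥T.S1.B) : FF N) : LaurentSeries Kbar)) :
    T.S1.chi (inftyPlace N) (inChart1_infty hT) b = IsLocalRing.residue ↥A (Y.coeff 0) := by
  rw [ChartSpec.chi_apply]
  congr 1
  apply Subtype.ext
  rw [ChartSpec.coe_ev, valueHom_inftyPlace N hx, ← hY, coeffMap_coeff]
  rfl

/-- `red b ∈ O_∞̃` for `b` in the cusp chart ring. -/
theorem red_mem_inftyC (hT : IsModel A N T) (b : ↥T.S1.B) :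
    T.S1.red b ∈ (inftyPlaceC (kA A) N).toValuationSubring := by
  obtain ⟨Y, hY⟩ := hT.c1.exists_series b
  apply mem_inftyPlaceC_of_coeff
  intro n hn
  rw [hT.c1.red_eq b Y hY, coeffMap_coeff, coeff_neg_eq_zero hT b hY hn, map_zero]

variable [IsAlgClosed (kA A)]

/-- the value of `red b` at `∞̃` is `χ_∞ b`. -/
theorem valueHom_red_inftyC (hT : IsModel A N T) (b : ↥T.S1.B) :
    valueHom hT.in0.gent (inftyPlaceC (kA A) N) ⟨T.S1.red b, red_mem_inftyC hT b⟩ =
      T.S1.chi (inftyPlace N) (inChart1_infty hT) b := by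
  obtain ⟨Y, hY⟩ := hT.c1.exists_series b
  rw [valueHom_inftyPlaceC (kA A) N hT.in0.gent, hT.c1.red_eq b Y hY, coeffMap_coeff,
    chi_infty_eq hT b hY]

/-- **(G1)**: `T.r ∞ = ∞̃`. -/
theorem r_infty (hT : IsModel A N T) : T.r (inftyPlace N) = inftyPlaceC (kA A) N := by
  rw [T.r_eq1 hT.in0.gent _ (inChart1_infty hT)]
  exact (eq_rAt hT.in0.gent T.places1 T.tr1 _ (inChart1_infty hT) _ (red_mem_inftyC hT)
    (valueHom_red_inftyC hT)).symm

/-- a place mapped to `∞̃` lies in chart 1. -/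
theorem inChart1_of_r_eq (hT : IsModel A N T) {z : Place Kbar (FF N)}
    (hz : T.r z = inftyPlaceC (kA A) N) : T.S1.InChart z := by
  apply T.inChart1_of_red_mem hT.in0.gent z
  rw [hz]
  exact red_mem_inftyC hT _

/-- at a place mapped to `∞̃` the centre is the centre of `∞`. -/
theorem chi_eq_of_r_eq (hT : IsModel A N T) {z : Place Kbar (FF N)}
    (hz : T.r z = inftyPlaceC (kA A) N) (b : ↥T.S1.B) :
    T.S1.chi z (inChart1_of_r_eq hT hz) b = T.S1.chi (inftyPlace N) (inChart1_infty hT) b := by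
  have h1 : rAt T.places1 T.tr1 z (inChart1_of_r_eq hT hz) = inftyPlaceC (kA A) N := by
    rw [← T.r_eq1 hT.in0.gent z (inChart1_of_r_eq hT hz)]
    exact hz
  rw [← valueHom_rAt hT.in0.gent T.places1 T.tr1 z (inChart1_of_r_eq hT hz) b,
    ← valueHom_red_inftyC hT b]
  exact valueHom_congr_place hT.in0.gent h1 _ _

/-- an element of the cusp chart ring whose centre value at `∞` is nonzero has neither zero nor
pole at any place mapped to `∞̃`. -/
theorem ord_eq_zero_of_chi_ne_zero (hT : IsModel A N T) {z : Place Kbar (FF N)}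
    (hz : T.r z = inftyPlaceC (kA A) N) (b : ↥T.S1.B)
    (hb : T.S1.chi (inftyPlace N) (inChart1_infty hT) b ≠ 0) :
    (b : FF N) ≠ 0 ∧ z.ord (b : FF N) = 0 := by
  have hin := inChart1_of_r_eq hT hz
  rw [← chi_eq_of_r_eq hT hz b] at hb
  have hev : T.S1.ev z hin b ≠ 0 := by
    intro h
    apply hb
    rw [ChartSpec.chi_apply, h, map_zero]
  rw [Ne, T.S1.ev_eq_zero_iff z hin b, not_or, not_lt] at hev
  refine ⟨hev.1, le_antisymm hev.2 ?_⟩
  exact FF.ord_nonneg_of_mem _ (T.S1.mem_place z hin b b.2)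

/-- **(G4)**: a unit at `∞̃` is the reduction of an `A`-integral function without zero or pole on
the residue disc of `∞`. -/
theorem exists_lift (hT : IsModel A N T) (u : ↥(modularFunctionFieldFullC (kA A) N)) (hu : u ≠ 0)
    (hord : ((u : ↥(modularFunctionFieldFullC (kA A) N)) : LaurentSeries (kA A)).order = 0) :
    ∃ (y : LaurentSeries ↥A) (hy : coeffMap A.subtype y ∈ modularFunctionFieldBar N),
      coeffMap (IsLocalRing.residue ↥A) y = (u : LaurentSeries (kA A)) ∧
      ∀ z : Place Kbar (FF N), T.r z = inftyPlaceC (kA A) N →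
        z.ord (⟨coeffMap A.subtype y, hy⟩ : FF N) = 0 := by
  have hxt := hT.in0.gent
  have h1 := inChart1_infty hT
  have hu0 : ((u : ↥(modularFunctionFieldFullC (kA A) N)) : LaurentSeries (kA A)) ≠ 0 :=
    fun h => hu (Subtype.ext h)
  -- `u ∈ O_∞̃ = O_{r ∞}` is a fraction of reductions
  have humem : u ∈ (inftyPlaceC (kA A) N).toValuationSubring := by
    rw [mem_inftyPlaceC_iff (kA A) N hu, hord]
  have humem' : u ∈ (rAt T.places1 T.tr1 (inftyPlace N) h1).toValuationSubring := by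
    rw [← T.r_eq1 hxt _ h1, r_infty hT]
    exact humem
  obtain ⟨a, d, hd, had⟩ := (mem_rAt_iff T.places1 T.tr1 (inftyPlace N) h1 u).mp humem'
  -- the value of `u` at `∞̃` is nonzero
  have huval : valueHom hxt (inftyPlaceC (kA A) N) ⟨u, humem⟩ ≠ 0 := by
    rw [valueHom_inftyPlaceC (kA A) N hxt, ← hord]
    exact fun h => hu0 (HahnSeries.coeff_order_eq_zero.mp h)
  have ha : T.S1.chi (inftyPlace N) h1 a ≠ 0 := by
    rw [← valueHom_red_inftyC hT a]
    have h2 : (⟨T.S1.red a, red_mem_inftyC hT a⟩ : ↥(inftyPlaceC (kA A) N).toValuationSubring) =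
        ⟨u, humem⟩ * ⟨T.S1.red d, red_mem_inftyC hT d⟩ := Subtype.ext had.symm
    rw [h2, map_mul, valueHom_red_inftyC hT d]
    exact mul_ne_zero huval hd
  -- the `q`-expansions
  obtain ⟨Ya, hYa⟩ := hT.c1.exists_series a
  obtain ⟨Yd, hYd⟩ := hT.c1.exists_series d
  have hd0 : IsUnit (Yd.coeff 0) := by
    rw [← IsLocalRing.residue_ne_zero_iff_isUnit, ← chi_infty_eq hT d hYd]
    exact hd
  obtain ⟨Z, hZ⟩ := exists_mul_eq_one_of_coeff Yd (fun n hn => coeff_neg_eq_zero hT d hYd hn) hd0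
  have hdne : (d : FF N) ≠ 0 := (ord_eq_zero_of_chi_ne_zero hT (r_infty hT) d hd).1
  have hane : (a : FF N) ≠ 0 := (ord_eq_zero_of_chi_ne_zero hT (r_infty hT) a ha).1
  -- `coeffMap Z` is the inverse of `d`, resp. of `red d`
  have hZ0 : coeffMap A.subtype Z = (((d : ↥T.S1.B) : FF N) : LaurentSeries Kbar)⁻¹ := by
    have h3 : (((d : ↥T.S1.B) : FF N) : LaurentSeries Kbar) * coeffMap A.subtype Z = 1 := by
      rw [← hYd, ← map_mul, hZ, map_one]
    exact eq_inv_of_mul_eq_one_right h3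
  have hZk : coeffMap (IsLocalRing.residue ↥A) Z =
      ((T.S1.red d : ↥(modularFunctionFieldFullC (kA A) N)) : LaurentSeries (kA A))⁻¹ := by
    have h3 : ((T.S1.red d : ↥(modularFunctionFieldFullC (kA A) N)) : LaurentSeries (kA A)) *
        coeffMap (IsLocalRing.residue ↥A) Z = 1 := by
      rw [hT.c1.red_eq d Yd hYd, ← map_mul, hZ, map_one]
    exact eq_inv_of_mul_eq_one_right h3
  have hy0 : coeffMap A.subtype (Ya * Z) =
      (((a : FF N) / (d : FF N) : FF N) : LaurentSeries Kbar) := by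
    rw [map_mul, hYa, hZ0]
    rfl
  have hy : coeffMap A.subtype (Ya * Z) ∈ modularFunctionFieldBar N := by
    rw [hy0]
    exact ((a : FF N) / (d : FF N)).2
  refine ⟨Ya * Z, hy, ?_, ?_⟩
  · have hredd : ((T.S1.red d : ↥(modularFunctionFieldFullC (kA A) N)) : LaurentSeries (kA A)) ≠ 0 := by
      intro h
      apply hd
      have : T.S1.red d = 0 := Subtype.ext h
      exact T.S1.chi_eq_zero_of_red_eq_zero _ h1 this
    have had' : (u : LaurentSeries (kA A)) *
        ((T.S1.red d : ↥(modularFunctionFieldFullC (kA A) N)) : LaurentSeries (kA A)) =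
        ((T.S1.red a : ↥(modularFunctionFieldFullC (kA A) N)) : LaurentSeries (kA A)) :=
      congrArg Subtype.val had
    rw [map_mul, hZk, ← hT.c1.red_eq a Ya hYa, ← had', mul_assoc, mul_inv_cancel₀ hredd, mul_one]
  · intro z hz
    have hfeq : (⟨coeffMap A.subtype (Ya * Z), hy⟩ : FF N) = (a : FF N) / (d : FF N) :=
      Subtype.ext hy0
    rw [hfeq, div_eq_mul_inv, Place.ord_mul z hane (inv_ne_zero hdne), Place.ord_inv,
      (ord_eq_zero_of_chi_ne_zero hT hz a ha).2, (ord_eq_zero_of_chi_ne_zero hT hz d hd).2]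
    norm_num

end Fermat.Agent.T1B.HolGeom93
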