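/-
T1B / brick H-GEOM (helper93), file GeomOfModel: the contract `Geom A N T.r` for the two-chart model
`IsModel A N T`, from (G1) `T.r ∞ = ∞̃` and (G4) (the lift of units at `∞̃`), which are
helper33's `HGeom33/Chart.lean`.
-/
import Mathlib
import Fermat.Agent.T1B.HolGeom93.Geom
import Fermat.Agent.T1B.HolGeom93.Norm

set_option autoImplicit false
set_option linter.unusedSectionVars false

open AlgebraicCurve ModularCurve HahnSeries

noncomputable section

namespace Fermat.Agent.T1B.HolGeom93

open Fermat.Agent.X0 Fermat.Agent.X0.FF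
open Fermat.Agent.ES.RED.Contract8 Fermat.Agent.ES.RED.TwoCharts8
open Fermat.Agent.MW.NCA61.InfPlace Fermat.Agent.T1B.Hol13

variable {A : ValuationSubring Kbar} {N : ℕ} [NeZero N]
  {x : FF N} {hx : IsGen Kbar x} {T : TwoCharts A hx ↥(modularFunctionFieldFullC (kA A) N)}

/-- **`Geom` for the model**, from (G1) and (G4). -/
theorem geom_of_model (hT : IsModel A N T)
    (hinf : T.r (inftyPlace N) = inftyPlaceC (kA A) N)
    (hlift : ∀ u : ↥(modularFunctionFieldFullC (kA A) N), u ≠ 0 →
      ((u : ↥(modularFunctionFieldFullC (kA A) N)) : LaurentSeries (kA A)).order = 0 →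
      ∃ (y : LaurentSeries ↥A) (hy : coeffMap A.subtype y ∈ modularFunctionFieldBar N),
        coeffMap (IsLocalRing.residue ↥A) y = (u : LaurentSeries (kA A)) ∧
        ∀ z : Place Kbar (FF N), T.r z = inftyPlaceC (kA A) N →
          z.ord (⟨coeffMap A.subtype y, hy⟩ : FF N) = 0) :
    Geom A N T.r where
  red := hT.red
  mem := hT.mem
  infty := hinf
  z0 := exists_z0 hT
  norm := exists_norm hT
  lift := hlift
  gen := ⟨_, hT.in0.gent⟩

end Fermat.Agent.T1B.HolGeom93
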