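/-
T1B / brick H-GEOM (helper93), file Exists: **`exists_geom`** — for `4 ∣ N`, `p ∤ N`, `A ⊂ ℚbar` over `p`
there is a reduction map of places `r` satisfying the contract `HolGeom93.Geom A N r`
(`r = T.r` for the two-chart model of `HolGeom93/Base`; (G1), (G4) from `HolGeom93/Chart93`,
(H4), (H5) from `HolGeom93/Norm`).
-/
import Mathlib
import Fermat.Agent.T1B.HolGeom93.GeomOfModel
import Fermat.Agent.T1B.HolGeom93.Chart93

set_option autoImplicit false
set_option linter.unusedSectionVars false
set_option linter.style.haveILetI false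
set_option synthInstance.maxHeartbeats 400000

open AlgebraicCurve ModularCurve HahnSeries

noncomputable section

namespace Fermat.Agent.T1B.HolGeom93

open Fermat.Agent.X0 Fermat.Agent.X0.FF
open Fermat.Agent.ES.RED.Contract8 Fermat.Agent.ES.RED.TwoCharts8
open Fermat.Agent.MW.NCA61.InfPlace Fermat.Agent.T1B.Hol13

variable (A : ValuationSubring Kbar) (N : ℕ) [NeZero N]

/-- **`exists_geom`**: the geometric contract of brick H holds for `4 ∣ N`, `p ∤ N`, `A` over `p`. -/
theorem exists_geom {p : ℕ} (hp : p.Prime) (h4 : 4 ∣ N) (hpN : ¬ p ∣ N)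
    (hA : A.LiesOverPrime p) :
    ∃ r : Place Kbar (FF N) → Place (kA A) ↥(modularFunctionFieldFullC (kA A) N), Geom A N r := by
  obtain ⟨x, hx, T, hT⟩ := exists_model A N hp h4 hpN hA
  haveI := isAlgClosed_kA A
  exact ⟨T.r, geom_of_model hT (r_infty hT) (exists_lift hT)⟩

end Fermat.Agent.T1B.HolGeom93
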