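/-
T1B / brick H-GEOM (helper93), file Main: the value compatibility **`Geom.value`** (G2) (helper33's
`HGeom33/Values.exists_value`), **`pb_of_geomStruct`** and **`pb_of_res2 : RES2 N → PB N A p`**
(from `HolGeom93/Exists.exists_geom` and `HolGeom93/PBCore.pb_of_geom`).
-/
import Mathlib
import Fermat.Agent.T1B.HolGeom93.Exists
import Fermat.Agent.T1B.HolGeom93.PBCore
import Fermat.Agent.T1B.HGeom33.Values

set_option autoImplicit false
set_option linter.unusedSectionVars false
set_option linter.style.haveILetI false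
set_option synthInstance.maxHeartbeats 400000

open AlgebraicCurve ModularCurve HahnSeries

noncomputable section

namespace Fermat.Agent.T1B.HolGeom93

open Fermat.Agent.X0 Fermat.Agent.X0.FF Fermat.Agent.ES.RED.PlaceValue13
open Fermat.Agent.ES.RED.Contract8 Fermat.Agent.ES.RED.TwoCharts8
open Fermat.Agent.MW.NCA61.InfPlace Fermat.Agent.T1B.Hol13

/-- helper33's `∞̄` is helper13's `∞̃`. -/
theorem inftyBar_eq (κ : Type*) [Field κ] (N : ℕ) [NeZero N] :
    Fermat.Agent.T1B.HGeom33.InfBar.inftyBar κ N = inftyPlaceC κ N := rfl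

variable {A : ValuationSubring Kbar} {N : ℕ} [NeZero N]
variable {r : Place Kbar (FF N) → Place (kA A) ↥(modularFunctionFieldFullC (kA A) N)}

/-- **(G2)**: values of `A`-integral functions regular away from `∞`, outside the residue disc of
`∞` (helper33's `Values.exists_value`, in the shape consumed by `pb_of_geom`). -/
theorem Geom.value (hG : Geom A N r) [IsAlgClosed (kA A)]
    {xt : ↥(modularFunctionFieldFullC (kA A) N)} (hxt : IsGen (kA A) xt)
    (Y : LaurentSeries ↥A) (hY : coeffMap A.subtype Y ∈ modularFunctionFieldBar N)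
    (hreg : RegOff N (⟨coeffMap A.subtype Y, hY⟩ : FF N))
    (z : Place Kbar (FF N)) (hz : z ≠ inftyPlace N) (hrz : r z ≠ inftyPlaceC (kA A) N) :
    ∃ (c : ↥A) (hft : (⟨coeffMap (IsLocalRing.residue ↥A) Y, hG.mem Y hY⟩ :
        ↥(modularFunctionFieldFullC (kA A) N)) ∈ (r z).toValuationSubring),
      valueHom (HasCanDivInst.isGen N) z ⟨⟨coeffMap A.subtype Y, hY⟩, hreg z hz⟩ = (c : Kbar) ∧
      valueHom hxt (r z) ⟨_, hft⟩ = IsLocalRing.residue ↥A c :=
  Fermat.Agent.T1B.HGeom33.Values.exists_value (HasCanDivInst.isGen N) hxt hG.red hG.infty hG.mem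
    Y hY hreg z hrz (hreg z hz)

/-- **(P-B) from the contract.** -/
theorem pb_of_geomStruct (hG : Geom A N r) {p : ℕ} [IsAlgClosed (kA A)] [CharP (kA A) p]
    (hres : RES2 N) : PB N A p := by
  obtain ⟨xt, hxt⟩ := hG.gen
  exact pb_of_geom hxt hG.red hG.infty hG.mem hG.lift (fun Y hY hreg z hz hrz =>
    hG.value hxt Y hY hreg z hz hrz) hres

/-- **`pb_of_res2`**: (P-B) from the characteristic zero residue formula. -/
theorem pb_of_res2 (N p : ℕ) [NeZero N] (hp : p.Prime) (h4 : 4 ∣ N) (hpN : ¬ p ∣ N)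
    (A : ValuationSubring Kbar) (hA : A.LiesOverPrime p) : RES2 N → PB N A p := by
  intro hres
  haveI := isAlgClosed_kA A
  haveI := charP_kA hp hA
  obtain ⟨r, hG⟩ := exists_geom A N hp h4 hpN hA
  exact pb_of_geomStruct hG hres

end Fermat.Agent.T1B.HolGeom93
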