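/-
T1B / brick H-GEOM (helper93), file PB: **(P-B) of brick H, unconditionally**:
`pb N p hp h4 hpN A hA : Hol13.PB N A p` — a logarithmic differential `dlog u` on the special fibre
`X₀(N)_κ` with `p ∣ div u` is orthogonal (for the residue pairing at `∞̃`) to the reductions of the
`A`-integral functions regular away from `∞`.
(`HolGeom93.pb_of_res2` + the characteristic zero residue formula `HRes2.res2`, helper49/helper2.)
-/
import Mathlib
import Fermat.Agent.T1B.HolGeom93.Main
import Fermat.Agent.T1B.HRes2.Res

set_option autoImplicit false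

noncomputable section

namespace Fermat.Agent.T1B.HolGeom93

open Fermat.Agent.X0 Fermat.Agent.T1B.Hol13

/-- **(P-B)**. -/
theorem pb (N p : ℕ) [NeZero N] (hp : p.Prime) (h4 : 4 ∣ N) (hpN : ¬ p ∣ N)
    (A : ValuationSubring Kbar) (hA : A.LiesOverPrime p) : PB N A p :=
  pb_of_res2 N p hp h4 hpN A hA (Fermat.Agent.T1B.HRes2.res2 N)

end Fermat.Agent.T1B.HolGeom93
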